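/-
S25 package ATLAS/DIV, leaf RigidCan -- helper file (helper2951).  Mathlib only.

An invertible `B`-module `N` whose fibre along a retraction `ε : B →ₐ[R] R` is generated by
the image of one element `s` has a universal `ε`-semilinear functional `e : N → R` with
`e s = 1` (the fibre `R ⊗[B] N` is an invertible `R`-module generated by one element, hence
free of rank one on it).
-/
import Mathlib

set_option autoImplicit false

namespace Fermat.Agent.S25.ATLAS.DIV.RigidCan

open scoped TensorProduct

section

variable {R B N : Type*} [CommRing R] [CommRing B] [Algebra R B]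
  [AddCommGroup N] [Module R N] [Module B N] [IsScalarTower R B N]

/-- Elements of `(ker ε) • ⊤` are killed by every `ε`-semilinear additive map. -/
theorem eq_zero_of_mem_ker_smul_top {Q : Type*} [AddCommGroup Q] [Module R Q]
    (ε : B →ₐ[R] R) (h : N →+ Q) (hh : ∀ (b : B) (n : N), h (b • n) = ε b • h n)
    {m : N} (hm : m ∈ (RingHom.ker (ε : B →+* R)) • (⊤ : Submodule B N)) : h m = 0 := by
  refine Submodule.smul_induction_on hm ?_ ?_
  · intro c hc n _
    have hc' : ε c = 0 := by simpa [RingHom.mem_ker] using hc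
    rw [hh, hc', zero_smul]
  · intro x y hx hy
    rw [map_add, hx, hy, add_zero]

/-- Decomposition of an element along a generator of the fibre. -/
theorem exists_decomp (ε : B →ₐ[R] R) (s : N)
    (hs : Submodule.span B {s} ⊔ (RingHom.ker (ε : B →+* R)) • (⊤ : Submodule B N) = ⊤)
    (n : N) : ∃ (b : B) (m : N), m ∈ (RingHom.ker (ε : B →+* R)) • (⊤ : Submodule B N) ∧
      n = b • s + m := by
  have hn : n ∈ Submodule.span B {s} ⊔ (RingHom.ker (ε : B →+* R)) • (⊤ : Submodule B N) := by
    rw [hs]; exact Submodule.mem_top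
  obtain ⟨y, hy, z, hz, rfl⟩ := Submodule.mem_sup.1 hn
  obtain ⟨b, rfl⟩ := Submodule.mem_span_singleton.1 hy
  exact ⟨b, z, hz, rfl⟩

/-- The rigidifying functional of an invertible module whose `ε`-fibre is generated by `s`. -/
theorem exists_semilinear_eval [Module.Invertible B N] (ε : B →ₐ[R] R) (s : N)
    (hs : Submodule.span B {s} ⊔ (RingHom.ker (ε : B →+* R)) • (⊤ : Submodule B N) = ⊤) :
    ∃ e : N →ₗ[R] R, (∀ (b : B) (n : N), e (b • n) = ε b * e n) ∧ e s = 1 := by
  letI : Algebra B R := (ε : B →+* R).toAlgebra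
  have hsmul : ∀ (b : B) (r : R), b • r = ε b * r := fun b r => rfl
  -- the fibre
  let φ : R →ₗ[R] R ⊗[B] N :=
    { toFun := fun r => r ⊗ₜ[B] s
      map_add' := fun r r' => TensorProduct.add_tmul r r' s
      map_smul' := fun r r' => by
        simp only [smul_eq_mul, RingHom.id_apply]
        rw [TensorProduct.smul_tmul', smul_eq_mul] }
  have hφ : Function.Surjective φ := by
    intro z
    induction z using TensorProduct.induction_on with
    | zero => exact ⟨0, map_zero φ⟩
    | tmul r n =>
      obtain ⟨b, m, hm, rfl⟩ := exists_decomp ε s hs n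
      refine ⟨ε b * r, ?_⟩
      have h0 : r ⊗ₜ[B] m = 0 := by
        refine Submodule.smul_induction_on hm ?_ ?_
        · intro c hc n' _
          have hc' : ε c = 0 := by simpa [RingHom.mem_ker] using hc
          rw [← TensorProduct.smul_tmul, hsmul, hc', zero_mul, TensorProduct.zero_tmul]
        · intro x y hx hy
          rw [TensorProduct.tmul_add, hx, hy, add_zero]
      change (ε b * r) ⊗ₜ[B] s = r ⊗ₜ[B] (b • s + m)
      rw [TensorProduct.tmul_add, h0, add_zero, ← TensorProduct.smul_tmul, hsmul]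
    | add x y hx hy =>
      obtain ⟨a, rfl⟩ := hx
      obtain ⟨a', rfl⟩ := hy
      exact ⟨a + a', map_add φ a a'⟩
  have hbij : Function.Bijective φ := Module.Invertible.bijective_of_surjective hφ
  let ψ : (R ⊗[B] N) ≃ₗ[R] R := (LinearEquiv.ofBijective φ hbij).symm
  have hψ : ∀ r : R, ψ (r ⊗ₜ[B] s) = r := fun r =>
    (LinearEquiv.ofBijective φ hbij).symm_apply_apply r
  let incl : N →ₗ[R] R ⊗[B] N :=
    { toFun := fun n => (1 : R) ⊗ₜ[B] n
      map_add' := fun n n' => TensorProduct.tmul_add 1 n n'
      map_smul' := fun r n => by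
        simp only [RingHom.id_apply]
        have h1 : r • n = (algebraMap R B r) • n := by
          rw [algebraMap_smul]
        rw [h1, ← TensorProduct.smul_tmul, hsmul, AlgHom.commutes, TensorProduct.smul_tmul',
          smul_eq_mul]
        simp }
  refine ⟨ψ.toLinearMap ∘ₗ incl, ?_, ?_⟩
  · intro b n
    change ψ ((1 : R) ⊗ₜ[B] (b • n)) = ε b * ψ ((1 : R) ⊗ₜ[B] n)
    rw [← TensorProduct.smul_tmul, hsmul, mul_one, ← smul_eq_mul (ε b), ← map_smul,
      TensorProduct.smul_tmul', smul_eq_mul, mul_one]
  · change ψ ((1 : R) ⊗ₜ[B] s) = 1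
    exact hψ 1

/-- The universal property of the rigidifying functional. -/
theorem existsUnique_factor (ε : B →ₐ[R] R) (s : N)
    (hs : Submodule.span B {s} ⊔ (RingHom.ker (ε : B →+* R)) • (⊤ : Submodule B N) = ⊤)
    (e : N →ₗ[R] R) (he : ∀ (b : B) (n : N), e (b • n) = ε b * e n) (hes : e s = 1)
    {Q : Type*} [AddCommGroup Q] [Module R Q] (h : N →ₗ[R] Q)
    (hh : ∀ (b : B) (n : N), h (b • n) = ε b • h n) :
    ∃! h' : R →ₗ[R] Q, ∀ n, h' (e n) = h n := by
  refine ⟨LinearMap.toSpanSingleton R Q (h s), ?_, ?_⟩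
  · intro n
    obtain ⟨b, m, hm, rfl⟩ := exists_decomp ε s hs n
    have hem : e m = 0 :=
      eq_zero_of_mem_ker_smul_top ε e.toAddMonoidHom (fun b n => by
        change e (b • n) = ε b • e n
        rw [he, smul_eq_mul]) hm
    have hhm : h m = 0 := eq_zero_of_mem_ker_smul_top ε h.toAddMonoidHom hh hm
    have h1 : e (b • s + m) = ε b := by rw [map_add, hem, add_zero, he, hes, mul_one]
    have h2 : h (b • s + m) = ε b • h s := by rw [map_add, hhm, add_zero, hh]
    rw [h1, h2, LinearMap.toSpanSingleton_apply]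
  · intro h'' hh''
    refine LinearMap.ext_ring ?_
    rw [LinearMap.toSpanSingleton_apply, one_smul, ← hes, hh'']

end

end Fermat.Agent.S25.ATLAS.DIV.RigidCan
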